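import Mathlib

/-!
# Row LT, tower T5 (helper807, OFF-MAIN): kernels with pointwise bounded integral operators

Mathlib only.  Abstract core of `T5.04 LeafRange ⇒ T5.02 LeafHS0`:

* `exists_bound_integral_sq807` -- (Banach--Steinhaus) if `k y ∈ L²(ν)` for every `y` and for every
  `f ∈ L²(ν)` the function `y ↦ ∫ k y z f z dν(z)` is bounded, then `∫ ‖k y z‖² dν(z) ≤ C` for
  every `y`, with ONE constant `C`;
* `memLp_two_prod_of_bound807` -- a jointly measurable kernel whose sections are in `L²(ν)` with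
  `∫ ‖K (y, z)‖² dν(z) ≤ C` is in `L²(ν₁ × ν)` for every finite measure `ν₁`;
* `memLp_two_prod_of_pointwise807` -- the two together.
-/

set_option autoImplicit false

open MeasureTheory

noncomputable section

namespace Fermat.Agent.LT.T5.H807

section Abstract

variable {X Y : Type*} [MeasurableSpace X] {ν : Measure X}

/-- The square of the `L²` norm as an integral. -/
theorem sq_toReal_eLpNorm_two807 {f : X → ℂ} (hf : MemLp f 2 ν) :
    (eLpNorm f 2 ν).toReal ^ 2 = ∫ z, ‖f z‖ ^ 2 ∂ν := by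
  have h := hf.eLpNorm_eq_integral_rpow_norm (by norm_num) (by norm_num)
  have h2 : ENNReal.toReal 2 = (2 : ℝ) := by simp
  rw [h2] at h
  have e : (∫ z, ‖f z‖ ^ (2 : ℝ) ∂ν) = ∫ z, ‖f z‖ ^ 2 ∂ν := by
    congr 1
    funext z
    exact Real.rpow_two _
  rw [e] at h
  have h0 : 0 ≤ ∫ z, ‖f z‖ ^ 2 ∂ν := integral_nonneg fun z => by positivity
  rw [h, ENNReal.toReal_ofReal (Real.rpow_nonneg h0 _), ← Real.rpow_natCast,
    ← Real.rpow_mul h0]
  norm_num

/-- **Banach--Steinhaus for kernels.**  If every section `k y` is in `L²(ν)` and for every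
`f ∈ L²(ν)` the function `y ↦ ∫ k y z f z dν(z)` is bounded, then the `L²` norms of the sections
are uniformly bounded. -/
theorem exists_bound_eLpNorm807 (k : Y → X → ℂ) (hk : ∀ y, MemLp (k y) 2 ν)
    (hbd : ∀ f : X → ℂ, MemLp f 2 ν → ∃ C : ℝ, ∀ y, ‖∫ z, k y z * f z ∂ν‖ ≤ C) :
    ∃ C : ℝ, ∀ y, (eLpNorm (k y) 2 ν).toReal ≤ C := by
  have hk' : ∀ y, MemLp (star (k y)) 2 ν := fun y => (hk y).star
  let κ : Y → Lp ℂ 2 ν := fun y => (hk' y).toLp _
  let Λ : Y → (Lp ℂ 2 ν →L[ℂ] ℂ) := fun y => innerSL ℂ (κ y)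
  have key : ∀ (y : Y) (f : Lp ℂ 2 ν), Λ y f = ∫ z, k y z * f z ∂ν := by
    intro y f
    change (innerSL ℂ (κ y)) f = _
    rw [innerSL_apply_apply, L2.inner_def]
    apply integral_congr_ae
    filter_upwards [(hk' y).coeFn_toLp] with z hz
    rw [RCLike.inner_apply]
    change f z * (starRingEnd ℂ) (κ y z) = _
    rw [show (κ y : X → ℂ) z = star (k y) z from hz]
    simp [mul_comm]
  obtain ⟨C, hC⟩ := banach_steinhaus (g := Λ) (fun f => by
    obtain ⟨C, hC⟩ := hbd f (Lp.memLp f)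
    exact ⟨C, fun y => by rw [key]; exact hC y⟩)
  refine ⟨C, fun y => ?_⟩
  have h1 : ‖Λ y‖ = ‖κ y‖ := innerSL_apply_norm ℂ (κ y)
  have h2 : ‖κ y‖ = (eLpNorm (star (k y)) 2 ν).toReal := Lp.norm_toLp _ _
  have h3 : eLpNorm (star (k y)) 2 ν = eLpNorm (k y) 2 ν := eLpNorm_star
  rw [← h3, ← h2, ← h1]
  exact hC y

/-- The same with the integral of the square. -/
theorem exists_bound_integral_sq807 (k : Y → X → ℂ) (hk : ∀ y, MemLp (k y) 2 ν)
    (hbd : ∀ f : X → ℂ, MemLp f 2 ν → ∃ C : ℝ, ∀ y, ‖∫ z, k y z * f z ∂ν‖ ≤ C) :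
    ∃ C : ℝ, ∀ y, ∫ z, ‖k y z‖ ^ 2 ∂ν ≤ C := by
  obtain ⟨C, hC⟩ := exists_bound_eLpNorm807 k hk hbd
  refine ⟨C ^ 2, fun y => ?_⟩
  rw [← sq_toReal_eLpNorm_two807 (hk y)]
  exact pow_le_pow_left₀ ENNReal.toReal_nonneg (hC y) 2

variable {X₁ : Type*} [MeasurableSpace X₁] {ν₁ : Measure X₁}

/-- A jointly measurable kernel with sections in `L²(ν)` of uniformly bounded norm is in
`L²(ν₁ × ν)`, `ν₁` finite. -/
theorem memLp_two_prod_of_bound807 [IsFiniteMeasure ν₁] [SFinite ν] (K : X₁ × X → ℂ)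
    (hK : AEStronglyMeasurable K (ν₁.prod ν)) (hk : ∀ y, MemLp (fun z => K (y, z)) 2 ν)
    (C : ℝ) (hC : ∀ y, ∫ z, ‖K (y, z)‖ ^ 2 ∂ν ≤ C) :
    MemLp K 2 (ν₁.prod ν) := by
  rw [memLp_two_iff_integrable_sq_norm hK]
  have hm : AEStronglyMeasurable (fun p : X₁ × X => ‖K p‖ ^ 2) (ν₁.prod ν) := hK.norm.pow 2
  rw [integrable_prod_iff hm]
  refine ⟨Filter.Eventually.of_forall fun y => ?_, ?_⟩
  · exact (memLp_two_iff_integrable_sq_norm (hk y).aestronglyMeasurable).1 (hk y)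
  · have hm2 : AEStronglyMeasurable (fun y => ∫ z, ‖‖K (y, z)‖ ^ 2‖ ∂ν) ν₁ :=
      hm.norm.integral_prod_right'
    refine Integrable.of_bound hm2 C (Filter.Eventually.of_forall fun y => ?_)
    have e : (fun z => ‖‖K (y, z)‖ ^ 2‖) = fun z => ‖K (y, z)‖ ^ 2 := by
      funext z
      exact Real.norm_of_nonneg (by positivity)
    rw [e, Real.norm_of_nonneg (integral_nonneg fun z => by positivity)]
    exact hC y

/-- **Pointwise bounded integral operators have square-integrable kernels.** -/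
theorem memLp_two_prod_of_pointwise807 [IsFiniteMeasure ν₁] [SFinite ν] (K : X₁ × X → ℂ)
    (hK : AEStronglyMeasurable K (ν₁.prod ν)) (hk : ∀ y, MemLp (fun z => K (y, z)) 2 ν)
    (hbd : ∀ f : X → ℂ, MemLp f 2 ν → ∃ C : ℝ, ∀ y, ‖∫ z, K (y, z) * f z ∂ν‖ ≤ C) :
    MemLp K 2 (ν₁.prod ν) := by
  obtain ⟨C, hC⟩ := exists_bound_integral_sq807 (fun y z => K (y, z)) hk hbd
  exact memLp_two_prod_of_bound807 K hK hk C hC

end Abstract

end Fermat.Agent.LT.T5.H807

end
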