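import Mathlib
import Fermat.Agent.LT.H556.A0
import Fermat.Agent.LT.T1.Spec
import Fermat.Agent.LT.T5.Spec

/-!
# Row LT, tower T5 (helper807, OFF-MAIN): the discrete group `GL₂(K) ⟨r⟩` in `GL₂(𝔸_K)`

From `T1.DiscreteC K` and `T1.AdNormC K`:

* `nu807 g = ‖det g‖_𝔸` is a continuous positive multiplicative function on `GL₂(𝔸_K)`, trivial
  on `GL₂(K)`, with `nu807 r = 2` for the ray generator `r` (`T5.IsRayGen`);
* the ray generator is central (`rayGen_comm807`);
* `finite_pairs807` : for every compact `C ⊆ GL₂(𝔸_K)` the set of pairs `(γ, m)`,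
  `γ ∈ GL₂(K)`, `m ∈ ℤ`, with `γ r^m ∈ C` is finite.
-/

set_option autoImplicit false

open IsDedekindDomain NumberField MeasureTheory
open scoped MatrixGroups

noncomputable section

namespace Fermat.Agent.LT.T5.H807

open Fermat.Agent.LT.H556.A0 Fermat.Agent.LT

variable {K : Type} [Field K] [NumberField K]

/-- `‖det g‖_𝔸`. -/
def nu807 (g : G K) : ℝ :=
  T1.adNorm K ((Matrix.GeneralLinearGroup.det g : (Adl K)ˣ) : Adl K)

theorem nu807_eq (g : G K) :
    nu807 g = T1.adNorm K ((Matrix.GeneralLinearGroup.det g : (Adl K)ˣ) : Adl K) := rfl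

theorem nu807_eq_T5 (g : G K) :
    nu807 g = T5.adNorm (Matrix.det (g : Matrix (Fin 2) (Fin 2) (Adl K))) := rfl

theorem nu807_pos (hN : T1.AdNormC K) (g : G K) : 0 < nu807 g := by
  rw [nu807_eq]
  exact hN.1 _

theorem nu807_mul (hN : T1.AdNormC K) (g h : G K) : nu807 (g * h) = nu807 g * nu807 h := by
  rw [nu807_eq, nu807_eq, nu807_eq, map_mul]
  exact hN.2.1 _ _

theorem nu807_one (hN : T1.AdNormC K) : nu807 (1 : G K) = 1 := by
  have h := nu807_mul hN (1 : G K) 1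
  rw [mul_one] at h
  have hp := nu807_pos hN (1 : G K)
  nlinarith

theorem nu807_inv (hN : T1.AdNormC K) (g : G K) : nu807 g⁻¹ = (nu807 g)⁻¹ := by
  have h := nu807_mul hN g g⁻¹
  rw [mul_inv_cancel, nu807_one hN] at h
  exact eq_inv_of_mul_eq_one_right h.symm

/-- `‖det‖_𝔸` as a monoid homomorphism. -/
def nuHom807 (hN : T1.AdNormC K) : G K →* ℝ where
  toFun := nu807
  map_one' := nu807_one hN
  map_mul' := nu807_mul hN

theorem nu807_zpow (hN : T1.AdNormC K) (g : G K) (m : ℤ) : nu807 (g ^ m) = nu807 g ^ m :=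
  (nuHom807 hN).map_zpow' (nu807_inv hN) g m

theorem continuous_glDet807 :
    Continuous (fun g : G K => (Matrix.GeneralLinearGroup.det g : (Adl K)ˣ)) := by
  rw [Units.continuous_iff]
  constructor
  · exact (Units.continuous_val : Continuous fun g : G K =>
      (g : Matrix (Fin 2) (Fin 2) (Adl K))).matrix_det
  · have h : Continuous fun g : G K => Matrix.det ((g⁻¹ : G K) : Matrix (Fin 2) (Fin 2) (Adl K)) :=
      (Units.continuous_coe_inv : Continuous fun g : G K =>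
        ((g⁻¹ : G K) : Matrix (Fin 2) (Fin 2) (Adl K))).matrix_det
    convert h using 2 with g
    rw [← map_inv]
    rfl

theorem continuous_nu807 (hN : T1.AdNormC K) : Continuous (nu807 : G K → ℝ) := by
  have h1 : Continuous fun x : (Adl K)ˣ => T1.adNorm K (x : Adl K) := hN.2.2.2
  have h2 := h1.comp (continuous_glDet807 (K := K))
  exact h2

theorem nu807_ratG (hN : T1.AdNormC K) (γ : GL (Fin 2) K) : nu807 (T5.ratG γ) = 1 := by
  have h := hN.2.2.1 (Matrix.GeneralLinearGroup.det γ)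
  rw [nu807_eq]
  convert h using 2
  change Matrix.det ((T5.ratG γ : G K) : Matrix (Fin 2) (Fin 2) (Adl K)) = _
  change Matrix.det ((algebraMap K (Adl K)).mapMatrix (γ : Matrix (Fin 2) (Fin 2) K)) = _
  rw [← RingHom.map_det]
  rfl


/-! ## The ray generator -/

theorem adl_ext807 {x y : Adl K} (h1 : ∀ w : InfinitePlace K, x.1 w = y.1 w)
    (h2 : ∀ v : HeightOneSpectrum (𝓞 K), x.2 v = y.2 v) : x = y :=
  Prod.ext (funext h1) (RestrictedProduct.ext _ _ h2)

omit [NumberField K] in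
theorem extEmb_injective807 (w : InfinitePlace K) :
    Function.Injective (InfinitePlace.Completion.extensionEmbedding w) :=
  (InfinitePlace.Completion.extensionEmbedding w).injective

omit [NumberField K] in
theorem norm_extEmb807 (w : InfinitePlace K) (x : w.Completion) :
    ‖InfinitePlace.Completion.extensionEmbedding w x‖ = ‖x‖ :=
  (InfinitePlace.Completion.isometry_extensionEmbedding w).norm_map_of_map_zero (map_zero _) x

variable {r : G K}

theorem rayGen_fin807 (hr : T5.IsRayGen r) (v : HeightOneSpectrum (𝓞 K)) (i j : Fin 2) :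
    ((r : Matrix (Fin 2) (Fin 2) (Adl K)) i j).2 v = if i = j then 1 else 0 := by
  have h := congrFun (congrFun (hr.1 v) i) j
  rw [Matrix.one_apply] at h
  exact h

theorem rayGen_inf807 (hr : T5.IsRayGen r) :
    ∃ t : ℝ, 0 < t ∧ t ^ (2 * Module.finrank ℚ K) = 2 ∧
      ∀ (w : InfinitePlace K) (i j : Fin 2),
        InfinitePlace.Completion.extensionEmbedding w
          (((r : Matrix (Fin 2) (Fin 2) (Adl K)) i j).1 w) = if i = j then (t : ℂ) else 0 := by
  obtain ⟨t, ht, ht2, h⟩ := hr.2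
  refine ⟨t, ht, ht2, fun w i j => ?_⟩
  have h' := congrFun (congrFun (h w) i) j
  rw [Matrix.diagonal_apply] at h'
  exact h'

/-- The ray generator is a scalar matrix. -/
theorem rayGen_scalar807 (hr : T5.IsRayGen r) :
    (r : Matrix (Fin 2) (Fin 2) (Adl K))
      = Matrix.diagonal (fun _ => (r : Matrix (Fin 2) (Fin 2) (Adl K)) 0 0) := by
  obtain ⟨t, -, -, h⟩ := rayGen_inf807 hr
  ext i j
  rw [Matrix.diagonal_apply]
  by_cases hij : i = j
  · subst hij
    rw [if_pos rfl]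
    apply adl_ext807
    · intro w
      apply extEmb_injective807 w
      rw [h w i i, h w 0 0]
      simp
    · intro v
      rw [rayGen_fin807 hr v i i, rayGen_fin807 hr v 0 0]
      simp
  · rw [if_neg hij]
    apply adl_ext807
    · intro w
      apply extEmb_injective807 w
      rw [h w i j, if_neg hij]
      change (0 : ℂ) = InfinitePlace.Completion.extensionEmbedding w (0 : w.Completion)
      rw [map_zero]
    · intro v
      rw [rayGen_fin807 hr v i j, if_neg hij]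
      rfl

/-- The ray generator is central. -/
theorem rayGen_comm807 (hr : T5.IsRayGen r) (g : G K) : r * g = g * r := by
  apply Units.ext
  change (r : Matrix (Fin 2) (Fin 2) (Adl K)) * (g : Matrix (Fin 2) (Fin 2) (Adl K))
    = (g : Matrix (Fin 2) (Fin 2) (Adl K)) * (r : Matrix (Fin 2) (Fin 2) (Adl K))
  rw [rayGen_scalar807 hr]
  ext i j
  simp [Matrix.diagonal_mul, Matrix.mul_diagonal, mul_comm]

theorem rayGen_zpow_comm807 (hr : T5.IsRayGen r) (m : ℤ) (g : G K) : r ^ m * g = g * r ^ m :=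
  ((Commute.zpow_left (show Commute r g from rayGen_comm807 hr g) m)).eq

/-- `‖det r‖_𝔸 = 2`. -/
theorem nu807_rayGen (hr : T5.IsRayGen r) : nu807 r = 2 := by
  obtain ⟨t, ht, ht2, h⟩ := rayGen_inf807 hr
  rw [nu807_eq_T5]
  unfold T5.adNorm
  rw [Matrix.det_fin_two]
  have hfin : ∀ v : HeightOneSpectrum (𝓞 K),
      ‖(((r : Matrix (Fin 2) (Fin 2) (Adl K)) 0 0 * (r : Matrix (Fin 2) (Fin 2) (Adl K)) 1 1
        - (r : Matrix (Fin 2) (Fin 2) (Adl K)) 0 1
          * (r : Matrix (Fin 2) (Fin 2) (Adl K)) 1 0 : Adl K)).2 v‖ = 1 := by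
    intro v
    have e : (((r : Matrix (Fin 2) (Fin 2) (Adl K)) 0 0 * (r : Matrix (Fin 2) (Fin 2) (Adl K)) 1 1
        - (r : Matrix (Fin 2) (Fin 2) (Adl K)) 0 1
          * (r : Matrix (Fin 2) (Fin 2) (Adl K)) 1 0 : Adl K)).2 v = 1 := by
      change ((r : Matrix (Fin 2) (Fin 2) (Adl K)) 0 0).2 v
          * ((r : Matrix (Fin 2) (Fin 2) (Adl K)) 1 1).2 v
        - ((r : Matrix (Fin 2) (Fin 2) (Adl K)) 0 1).2 v
          * ((r : Matrix (Fin 2) (Fin 2) (Adl K)) 1 0).2 v = 1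
      rw [rayGen_fin807 hr v 0 0, rayGen_fin807 hr v 1 1, rayGen_fin807 hr v 0 1,
        rayGen_fin807 hr v 1 0]
      simp
    rw [e, norm_one]
  have hinf : ∀ w : InfinitePlace K,
      ‖(((r : Matrix (Fin 2) (Fin 2) (Adl K)) 0 0 * (r : Matrix (Fin 2) (Fin 2) (Adl K)) 1 1
        - (r : Matrix (Fin 2) (Fin 2) (Adl K)) 0 1
          * (r : Matrix (Fin 2) (Fin 2) (Adl K)) 1 0 : Adl K)).1 w‖ = t ^ 2 := by
    intro w
    rw [← norm_extEmb807 w]
    have e : InfinitePlace.Completion.extensionEmbedding w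
        ((((r : Matrix (Fin 2) (Fin 2) (Adl K)) 0 0 * (r : Matrix (Fin 2) (Fin 2) (Adl K)) 1 1
        - (r : Matrix (Fin 2) (Fin 2) (Adl K)) 0 1
          * (r : Matrix (Fin 2) (Fin 2) (Adl K)) 1 0 : Adl K)).1 w) = ((t : ℂ)) ^ 2 := by
      change InfinitePlace.Completion.extensionEmbedding w
        (((r : Matrix (Fin 2) (Fin 2) (Adl K)) 0 0).1 w
          * ((r : Matrix (Fin 2) (Fin 2) (Adl K)) 1 1).1 w
        - ((r : Matrix (Fin 2) (Fin 2) (Adl K)) 0 1).1 w
          * ((r : Matrix (Fin 2) (Fin 2) (Adl K)) 1 0).1 w) = _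
      rw [map_sub, map_mul, map_mul, h w 0 0, h w 1 1, h w 0 1, h w 1 0]
      simp [sq]
    rw [e, norm_pow, Complex.norm_real, Real.norm_of_nonneg ht.le]
  rw [finprod_eq_one_of_forall_eq_one hfin, mul_one]
  simp_rw [hinf]
  rw [Finset.prod_pow_eq_pow_sum, InfinitePlace.sum_mult_eq, ← pow_mul]
  exact ht2

theorem nu807_ratG_mul_zpow (hN : T1.AdNormC K) (hr : T5.IsRayGen r) (γ : GL (Fin 2) K)
    (m : ℤ) : nu807 (T5.ratG γ * r ^ m) = (2 : ℝ) ^ m := by
  rw [nu807_mul hN, nu807_ratG hN, one_mul, nu807_zpow hN, nu807_rayGen hr]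

/-! ## Finiteness -/

theorem ratG_injective807 : Function.Injective (T5.ratG : GL (Fin 2) K → G K) := by
  intro γ δ h
  apply Units.ext
  have h' : ((T5.ratG γ : G K) : Matrix (Fin 2) (Fin 2) (Adl K))
      = ((T5.ratG δ : G K) : Matrix (Fin 2) (Fin 2) (Adl K)) := by rw [h]
  change (γ : Matrix (Fin 2) (Fin 2) K).map (algebraMap K (Adl K))
    = (δ : Matrix (Fin 2) (Fin 2) K).map (algebraMap K (Adl K)) at h'
  exact Matrix.map_injective (NumberField.AdeleRing.algebraMap_injective (𝓞 K) K) h'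

/-- `GL₂(K)` meets every compact set in a finite set. -/
theorem finite_ratG_mem807 (hD : T1.DiscreteC K) {C : Set (G K)} (hC : IsCompact C) :
    {γ : GL (Fin 2) K | T5.ratG γ ∈ C}.Finite := by
  have h1 : IsCompact ((T1.Gam K : Set (G K)) ∩ C) := hC.inter_left hD.2
  have h2 : IsDiscrete ((T1.Gam K : Set (G K)) ∩ C) :=
    (isDiscrete_iff_discreteTopology.2 hD.1).mono Set.inter_subset_left
  have h3 := h1.finite h2
  have h4 : {γ : GL (Fin 2) K | T5.ratG γ ∈ C}
      ⊆ (T5.ratG : GL (Fin 2) K → G K) ⁻¹' ((T1.Gam K : Set (G K)) ∩ C) := by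
    intro γ hγ
    exact ⟨⟨γ, rfl⟩, hγ⟩
  exact (h3.preimage (ratG_injective807.injOn)).subset h4

/-- **`GL₂(K) ⟨r⟩` meets every compact set in a finite set.** -/
theorem finite_pairs807 (hD : T1.DiscreteC K) (hN : T1.AdNormC K) (hr : T5.IsRayGen r)
    {C : Set (G K)} (hC : IsCompact C) :
    {p : GL (Fin 2) K × ℤ | T5.ratG p.1 * r ^ p.2 ∈ C}.Finite := by
  rcases C.eq_empty_or_nonempty with rfl | hne
  · simp
  -- bounds for `‖det‖` on `C`
  obtain ⟨x₀, -, hmin⟩ := hC.exists_isMinOn hne (continuous_nu807 hN).continuousOn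
  obtain ⟨x₁, -, hmax⟩ := hC.exists_isMaxOn hne (continuous_nu807 hN).continuousOn
  have ha : 0 < nu807 x₀ := nu807_pos hN x₀
  obtain ⟨N₁, hN₁⟩ := pow_unbounded_of_one_lt (nu807 x₁) (one_lt_two : (1 : ℝ) < 2)
  obtain ⟨N₂, hN₂⟩ := exists_pow_lt_of_lt_one ha (by norm_num : (2 : ℝ)⁻¹ < 1)
  have hm : ∀ p : GL (Fin 2) K × ℤ, T5.ratG p.1 * r ^ p.2 ∈ C →
      p.2 ∈ Set.Ioo (-(N₂ : ℤ)) (N₁ : ℤ) := by
    intro p hp
    have e := nu807_ratG_mul_zpow hN hr p.1 p.2
    have h1 : nu807 x₀ ≤ (2 : ℝ) ^ p.2 := by rw [← e]; exact hmin hp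
    have h2 : (2 : ℝ) ^ p.2 ≤ nu807 x₁ := by rw [← e]; exact hmax hp
    constructor
    · have : (2 : ℝ) ^ (-(N₂ : ℤ)) < (2 : ℝ) ^ p.2 := by
        have e2 : (2 : ℝ) ^ (-(N₂ : ℤ)) = (2 : ℝ)⁻¹ ^ N₂ := by
          rw [zpow_neg, zpow_natCast, inv_pow]
        rw [e2]
        exact lt_of_lt_of_le hN₂ h1
      exact (zpow_lt_zpow_iff_right₀ (one_lt_two : (1 : ℝ) < 2)).1 this
    · have : (2 : ℝ) ^ p.2 < (2 : ℝ) ^ (N₁ : ℤ) := by
        rw [zpow_natCast]
        exact lt_of_le_of_lt h2 hN₁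
      exact (zpow_lt_zpow_iff_right₀ (one_lt_two : (1 : ℝ) < 2)).1 this
  have hfin : ∀ m : ℤ, {γ : GL (Fin 2) K | T5.ratG γ * r ^ m ∈ C}.Finite := by
    intro m
    have hc : IsCompact ((fun g : G K => g * (r ^ m)⁻¹) '' C) :=
      hC.image (continuous_mul_const _)
    refine (finite_ratG_mem807 hD hc).subset ?_
    intro γ hγ
    exact ⟨_, hγ, by simp [mul_assoc]⟩
  have hsub : {p : GL (Fin 2) K × ℤ | T5.ratG p.1 * r ^ p.2 ∈ C}
      ⊆ ⋃ m ∈ Set.Ioo (-(N₂ : ℤ)) (N₁ : ℤ),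
          (fun γ : GL (Fin 2) K => (γ, m)) '' {γ : GL (Fin 2) K | T5.ratG γ * r ^ m ∈ C} := by
    intro p hp
    simp only [Set.mem_iUnion, Set.mem_image, Set.mem_ofPred_eq]
    exact ⟨p.2, hm p hp, p.1, hp, rfl⟩
  exact ((Set.finite_Ioo _ _).biUnion fun m _ => (hfin m).image _).subset hsub

end Fermat.Agent.LT.T5.H807

end
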