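import Mathlib
import Fermat.Agent.LT.H556.A0
import Fermat.Agent.LT.T1.Spec
import Fermat.Agent.LT.T5.Spec
import Fermat.Agent.LT.T5.H807.BSKernel
import Fermat.Agent.LT.T5.H807.Discrete

/-!
# Row LT, tower T5 (helper807, OFF-MAIN): `T5.04 LeafRange ⇒ T5.02 LeafHS0`

`leafHS0_of_range807 : T1.LocCompC K → T1.DiscreteC K → T1.AdNormC K →
    T5.LeafRange 𝔫 τ → T5.LeafHS0 𝔫 τ`   (T5/Spec.lean v4 sha256 f2d97e70; also builds vs v3)

The kernel `K_φ(x, y) = ∑_γ φ♭(x⁻¹ γ y)` is a locally finite sum (`GL₂(K) ⟨r⟩` is discrete and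
`φ` has compact support), hence continuous on `GL₂(𝔸_K) × GL₂(𝔸_K)`, and every section
`K_φ(x, ·)` is bounded.  By `LeafRange` the functionals `f ↦ ∫_F K_φ(x, z) f(z) dz`, `x ∈ G`,
are pointwise bounded on `L²(F)`; by the Banach--Steinhaus theorem their norms
`‖K_φ(x, ·)‖_{L²(F)}` are uniformly bounded, and `μ(F) < ∞` gives `K_φ ∈ L²(F × F)`.
So the Gelfand--Piatetski-Shapiro estimate is needed ONCE (in the sup form of `LeafRange`).
-/

set_option autoImplicit false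

open IsDedekindDomain NumberField MeasureTheory
open scoped MatrixGroups Pointwise

noncomputable section

namespace Fermat.Agent.LT.T5.H807

open Fermat.Agent.LT.H556.A0 Fermat.Agent.LT

attribute [local instance] Fermat.Agent.LT.T5.instMeasurableSpaceG

/-! ## Nested sums with finite support -/

theorem tsum_tsum_eq_sum807 {α β : Type*} (f : α → β → ℂ) (T : Finset (α × β))
    (hT : ∀ a b, (a, b) ∉ T → f a b = 0) :
    ∑' a, ∑' b, f a b = ∑ p ∈ T, f p.1 p.2 := by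
  classical
  have h1 : ∀ a, ∑' b, f a b = ∑ b ∈ T.image Prod.snd, f a b := by
    intro a
    apply tsum_eq_sum
    intro b hb
    apply hT
    intro hab
    exact hb (Finset.mem_image.2 ⟨(a, b), hab, rfl⟩)
  simp_rw [h1]
  have h2 : ∑' a, ∑ b ∈ T.image Prod.snd, f a b
      = ∑ a ∈ T.image Prod.fst, ∑ b ∈ T.image Prod.snd, f a b := by
    apply tsum_eq_sum
    intro a ha
    apply Finset.sum_eq_zero
    intro b _
    apply hT
    intro hab
    exact ha (Finset.mem_image.2 ⟨(a, b), hab, rfl⟩)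
  rw [h2, ← Finset.sum_product']
  symm
  apply Finset.sum_subset
  · intro p hp
    exact Finset.mem_product.2
      ⟨Finset.mem_image.2 ⟨p, hp, rfl⟩, Finset.mem_image.2 ⟨p, hp, rfl⟩⟩
  · intro p _ hp
    exact hT p.1 p.2 hp

variable {K : Type} [Field K] [NumberField K]

theorem ker0_eq807 (r : G K) (φ : G K → ℂ) (x y : G K) :
    T5.ker0 r φ x y = ∑' γ : GL (Fin 2) K, ∑' m : ℤ, φ (x⁻¹ * T5.ratG γ * y * r ^ m) := rfl

/-- The kernel as a finite sum. -/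
theorem ker0_eq_sum807 (r : G K) (φ : G K → ℂ) (x y : G K) (T : Finset (GL (Fin 2) K × ℤ))
    (hT : ∀ (γ : GL (Fin 2) K) (m : ℤ), (γ, m) ∉ T → φ (x⁻¹ * T5.ratG γ * y * r ^ m) = 0) :
    T5.ker0 r φ x y = ∑ p ∈ T, φ (x⁻¹ * T5.ratG p.1 * y * r ^ p.2) := by
  rw [ker0_eq807]
  exact tsum_tsum_eq_sum807 (fun γ m => φ (x⁻¹ * T5.ratG γ * y * r ^ m)) T hT


/-! ## Explicit continuity lemmas (no automation: `G K` is a heavy type) -/

theorem continuous_arg807 (r : G K) (q : GL (Fin 2) K × ℤ) :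
    Continuous (fun p : G K × G K => p.1⁻¹ * T5.ratG q.1 * p.2 * r ^ q.2) :=
  (((continuous_fst.inv).mul continuous_const).mul continuous_snd).mul continuous_const

theorem continuous_conj807 (x : G K) :
    Continuous (fun p : G K × G K => x * p.1 * p.2⁻¹ * x⁻¹) :=
  ((continuous_const.mul continuous_fst).mul continuous_snd.inv).mul continuous_const

theorem continuous_triple807 :
    Continuous (fun p : G K × G K × G K => p.1 * p.2.1 * p.2.2⁻¹) :=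
  (continuous_fst.mul (continuous_fst.comp continuous_snd)).mul
    (continuous_snd.comp continuous_snd).inv

theorem continuous_summand807 (r : G K) (φ : G K → ℂ) (hc : Continuous φ)
    (q : GL (Fin 2) K × ℤ) :
    Continuous (fun p : G K × G K => φ (p.1⁻¹ * T5.ratG q.1 * p.2 * r ^ q.2)) :=
  hc.comp (continuous_arg807 r q)

theorem continuous_finsum807 (r : G K) (φ : G K → ℂ) (hc : Continuous φ)
    (T : Finset (GL (Fin 2) K × ℤ)) :
    Continuous (fun p : G K × G K => ∑ q ∈ T, φ (p.1⁻¹ * T5.ratG q.1 * p.2 * r ^ q.2)) := by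
  apply continuous_finsetSum
  intro q _
  exact continuous_summand807 r φ hc q

theorem continuous_section807 (r : G K) (φ : G K → ℂ) (x : G K)
    (hcont : Continuous (fun p : G K × G K => T5.ker0 r φ p.1 p.2)) :
    Continuous (fun z : G K => T5.ker0 r φ x z) :=
  hcont.comp (f := fun z : G K => (x, z)) (continuous_const.prodMk continuous_id)

/-! ## Local finiteness -/

variable {r : G K} {φ : G K → ℂ}

/-- If `φ(x⁻¹ γ y rᵐ) ≠ 0` then `γ rᵐ ∈ x · supp φ · y⁻¹`. -/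
theorem mem_of_ne_zero807 (hr : T5.IsRayGen r) {x y : G K} {γ : GL (Fin 2) K} {m : ℤ}
    (h : φ (x⁻¹ * T5.ratG γ * y * r ^ m) ≠ 0) :
    ∃ s ∈ tsupport φ, T5.ratG γ * r ^ m = x * s * y⁻¹ := by
  refine ⟨x⁻¹ * T5.ratG γ * y * r ^ m, subset_tsupport _ h, ?_⟩
  have hc : y * r ^ m = r ^ m * y := (rayGen_zpow_comm807 hr m y).symm
  calc T5.ratG γ * r ^ m = x * (x⁻¹ * T5.ratG γ * (r ^ m * y)) * y⁻¹ := by group
    _ = x * (x⁻¹ * T5.ratG γ * y * r ^ m) * y⁻¹ := by rw [← hc]; group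

/-- Local finiteness on a product of compact sets. -/
theorem exists_finset_local807 (hD : T1.DiscreteC K) (hN : T1.AdNormC K) (hr : T5.IsRayGen r)
    (hφ : HasCompactSupport φ) {V₁ V₂ : Set (G K)} (h₁ : IsCompact V₁) (h₂ : IsCompact V₂) :
    ∃ T : Finset (GL (Fin 2) K × ℤ), ∀ x ∈ V₁, ∀ y ∈ V₂, ∀ (γ : GL (Fin 2) K) (m : ℤ),
      (γ, m) ∉ T → φ (x⁻¹ * T5.ratG γ * y * r ^ m) = 0 := by
  have hS : IsCompact (tsupport φ) := hφ
  have hC : IsCompact ((fun p : G K × G K × G K => p.1 * p.2.1 * p.2.2⁻¹) ''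
      (V₁ ×ˢ (tsupport φ ×ˢ V₂))) :=
    (h₁.prod (hS.prod h₂)).image continuous_triple807
  have hfin := finite_pairs807 hD hN hr hC
  refine ⟨hfin.toFinset, fun x hx y hy γ m hγ => ?_⟩
  by_contra hne
  apply hγ
  rw [Set.Finite.mem_toFinset]
  obtain ⟨s, hs, e⟩ := mem_of_ne_zero807 hr hne
  exact ⟨(x, s, y), ⟨hx, hs, hy⟩, e.symm⟩

/-- **The kernel is continuous** on `GL₂(𝔸_K) × GL₂(𝔸_K)`. -/
theorem continuous_ker0_807 [LocallyCompactSpace (G K)] (hD : T1.DiscreteC K)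
    (hN : T1.AdNormC K) (hr : T5.IsRayGen r) (hc : Continuous φ) (hφ : HasCompactSupport φ) :
    Continuous (fun p : G K × G K => T5.ker0 r φ p.1 p.2) := by
  rw [continuous_iff_continuousAt]
  rintro ⟨x₀, y₀⟩
  obtain ⟨V₁, h₁, hx₀⟩ := exists_compact_mem_nhds x₀
  obtain ⟨V₂, h₂, hy₀⟩ := exists_compact_mem_nhds y₀
  obtain ⟨T, hT⟩ := exists_finset_local807 hD hN hr hφ h₁ h₂
  have hF := continuous_finsum807 r φ hc T
  refine hF.continuousAt.congr ?_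
  have hnhd : V₁ ×ˢ V₂ ∈ nhds (x₀, y₀) := prod_mem_nhds hx₀ hy₀
  filter_upwards [hnhd] with p hp
  exact (ker0_eq_sum807 r φ p.1 p.2 T (hT p.1 hp.1 p.2 hp.2)).symm

/-- **Every section of the kernel is bounded.** -/
theorem exists_bound_ker0_807 (hD : T1.DiscreteC K) (hN : T1.AdNormC K) (hr : T5.IsRayGen r)
    (hc : Continuous φ) (hφ : HasCompactSupport φ) (x : G K) :
    ∃ C : ℝ, ∀ y : G K, ‖T5.ker0 r φ x y‖ ≤ C := by
  classical
  obtain ⟨M, hM⟩ := hc.bounded_above_of_compact_support hφ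
  have hM0 : 0 ≤ M := le_trans (norm_nonneg _) (hM 1)
  have hS : IsCompact (tsupport φ) := hφ
  have hC : IsCompact ((fun p : G K × G K => x * p.1 * p.2⁻¹ * x⁻¹) ''
      (tsupport φ ×ˢ tsupport φ)) :=
    (hS.prod hS).image (continuous_conj807 x)
  have hfin := finite_pairs807 hD hN hr hC
  refine ⟨hfin.toFinset.card * M, fun y => ?_⟩
  by_cases hex : ∃ (γ₀ : GL (Fin 2) K) (m₀ : ℤ), φ (x⁻¹ * T5.ratG γ₀ * y * r ^ m₀) ≠ 0
  · obtain ⟨γ₀, m₀, h₀⟩ := hex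
    obtain ⟨s₀, hs₀, e₀⟩ := mem_of_ne_zero807 hr h₀
    let T : Finset (GL (Fin 2) K × ℤ) :=
      hfin.toFinset.image (fun q => (q.1 * γ₀, q.2 + m₀))
    have hT : ∀ (γ : GL (Fin 2) K) (m : ℤ), (γ, m) ∉ T →
        φ (x⁻¹ * T5.ratG γ * y * r ^ m) = 0 := by
      intro γ m hγ
      by_contra hne
      apply hγ
      obtain ⟨s, hs, e⟩ := mem_of_ne_zero807 hr hne
      refine Finset.mem_image.2 ⟨(γ * γ₀⁻¹, m - m₀), ?_, ?_⟩
      · rw [Set.Finite.mem_toFinset]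
        refine ⟨(s, s₀), ⟨hs, hs₀⟩, ?_⟩
        change x * s * s₀⁻¹ * x⁻¹ = T5.ratG (γ * γ₀⁻¹) * r ^ (m - m₀)
        have hcomm : r ^ m₀ * (T5.ratG γ₀)⁻¹ = (T5.ratG γ₀)⁻¹ * r ^ m₀ :=
          rayGen_zpow_comm807 hr m₀ _
        have e1 : x * s * y⁻¹ * (x * s₀ * y⁻¹)⁻¹ = x * s * s₀⁻¹ * x⁻¹ := by group
        rw [← e1, ← e, ← e₀, map_mul, map_inv, zpow_sub]
        have e2 : (T5.ratG γ₀ * r ^ m₀)⁻¹ = (r ^ m₀)⁻¹ * (T5.ratG γ₀)⁻¹ := mul_inv_rev _ _
        rw [e2]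
        have hcomm2 : (r ^ m₀)⁻¹ * (T5.ratG γ₀)⁻¹ = (T5.ratG γ₀)⁻¹ * (r ^ m₀)⁻¹ := by
          have := rayGen_zpow_comm807 hr (-m₀) (T5.ratG γ₀)⁻¹
          rwa [zpow_neg] at this
        have hcomm3 : r ^ m * (T5.ratG γ₀)⁻¹ = (T5.ratG γ₀)⁻¹ * r ^ m :=
          rayGen_zpow_comm807 hr m _
        calc T5.ratG γ * r ^ m * ((r ^ m₀)⁻¹ * (T5.ratG γ₀)⁻¹)
            = T5.ratG γ * r ^ m * ((T5.ratG γ₀)⁻¹ * (r ^ m₀)⁻¹) := by rw [hcomm2]
          _ = T5.ratG γ * (r ^ m * (T5.ratG γ₀)⁻¹) * (r ^ m₀)⁻¹ := by group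
          _ = T5.ratG γ * ((T5.ratG γ₀)⁻¹ * r ^ m) * (r ^ m₀)⁻¹ := by rw [hcomm3]
          _ = T5.ratG γ * (T5.ratG γ₀)⁻¹ * (r ^ m * (r ^ m₀)⁻¹) := by group
      · simp
    rw [ker0_eq_sum807 r φ x y T hT]
    calc ‖∑ p ∈ T, φ (x⁻¹ * T5.ratG p.1 * y * r ^ p.2)‖
        ≤ ∑ p ∈ T, ‖φ (x⁻¹ * T5.ratG p.1 * y * r ^ p.2)‖ := norm_sum_le _ _
      _ ≤ ∑ _p ∈ T, M := Finset.sum_le_sum fun p _ => hM _
      _ = T.card * M := by rw [Finset.sum_const, nsmul_eq_mul]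
      _ ≤ hfin.toFinset.card * M := by
          apply mul_le_mul_of_nonneg_right _ hM0
          exact_mod_cast Finset.card_image_le
  · have hT : ∀ (γ : GL (Fin 2) K) (m : ℤ), (γ, m) ∉ (∅ : Finset (GL (Fin 2) K × ℤ)) →
        φ (x⁻¹ * T5.ratG γ * y * r ^ m) = 0 := by
      intro γ m _
      by_contra hne
      exact hex ⟨γ, m, hne⟩
    rw [ker0_eq_sum807 r φ x y ∅ hT, Finset.sum_empty, norm_zero]
    exact mul_nonneg (Nat.cast_nonneg _) hM0

/-! ## The theorem -/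

/-- **`T5.04 LeafRange ⇒ T5.02 LeafHS0`** (Banach--Steinhaus). -/
theorem leafHS0_of_range807 (hLC : T1.LocCompC K) (hD : T1.DiscreteC K) (hN : T1.AdNormC K)
    (𝔫 : Ideal (𝓞 K)) (τ : G K → ℂ) (hR : T5.LeafRange 𝔫 τ) : T5.LeafHS0 𝔫 τ := by
  intro μ F r hF hr φ hφ hek hek'
  have : LocallyCompactSpace (G K) := hLC.2.1
  have : SecondCountableTopology (G K) := hLC.2.2.2
  have : BorelSpace (G K) := ⟨rfl⟩
  have : IsFiniteMeasure (μ.restrict F) :=
    ⟨by rw [Measure.restrict_apply_univ]; exact hF.finite⟩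
  have hcont := continuous_ker0_807 hD hN hr hφ.cont hφ.supp
  refine memLp_two_prod_of_pointwise807 (fun p : G K × G K => T5.ker0 r φ p.1 p.2)
    hcont.aestronglyMeasurable ?_ ?_
  · intro x
    obtain ⟨C, hC⟩ := exists_bound_ker0_807 hD hN hr hφ.cont hφ.supp x
    have hcx := continuous_section807 r φ x hcont
    exact MemLp.of_bound hcx.aestronglyMeasurable C (Filter.Eventually.of_forall hC)
  · intro f hf
    obtain ⟨C, hC⟩ := (hR μ F r hF hr φ hφ hek hek' f hf).bdd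
    exact ⟨C, hC⟩

end Fermat.Agent.LT.T5.H807

end
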